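/-
S17lib / ValExt / PlaceOfVal  (helper3) — Project G (S17): a valuation subring of a function field
of one variable which contains the constants and is not the whole field is a `Place`.

* `exists_heightOneSpectrum_of_valuationSubring` : `R` a Dedekind model of `F` (`Frac R = F`),
  `V ≠ ⊤` a valuation subring of `F` containing `R` ⇒ `V` is the valuation subring of a height one
  prime of `R` (its centre);
* `exists_place_of_mem` : `y ∈ V` transcendental over `K`, `F / K(y)` finite separable, `K ⊆ V`,
  `V ≠ ⊤` ⇒ `∃ P : Place K F, P.toValuationSubring = V`;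
* `exists_place_of_valuationSubring` : the same for any separating `x` (`x ∈ V` or `x⁻¹ ∈ V`),
  characteristic zero.
-/
import Mathlib
import Fermat.Prelude.Def_AlgebraicCurve_DivisorClassGroup
import Fermat.Agent.S18lib.RRgen.Canonical

set_option autoImplicit false
set_option linter.unusedSectionVars false
set_option linter.style.haveILetI false

noncomputable section

namespace Fermat.Agent.S17lib.ValExt

open AlgebraicCurve IsDedekindDomain IntermediateField Polynomial
open Fermat.Agent.S18lib.RRgen.Canonical

variable {K F : Type*} [Field K] [Field F] [Algebra K F]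

section Dedekind

variable {R : Type*} [CommRing R] [IsDedekindDomain R] [Algebra R F] [IsFractionRing R F]

/-- a proper valuation subring containing a Dedekind model is the valuation subring of its centre -/
theorem exists_heightOneSpectrum_of_valuationSubring (V : ValuationSubring F)
    (hR : ∀ r : R, algebraMap R F r ∈ V) (hV : V ≠ ⊤) :
    ∃ P : HeightOneSpectrum R, (P.valuation F).valuationSubring = V := by
  classical
  let φ : R →+* V := (algebraMap R F).codRestrict V.toSubring hR
  have hφ : ∀ r : R, ((φ r : V) : F) = algebraMap R F r := fun _ => rfl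
  let c : Ideal R := Ideal.comap φ (IsLocalRing.maximalIdeal V)
  have hcprime : c.IsPrime := Ideal.comap_isPrime _ _
  have hinv : ∀ r : R, r ∉ c → (algebraMap R F r)⁻¹ ∈ V := by
    intro r hr
    have hu : IsUnit (φ r) := by
      by_contra hnu
      exact hr ((IsLocalRing.mem_maximalIdeal _).2 hnu)
    obtain ⟨u, hu⟩ := hu
    have h1 : ((u : V) : F) = algebraMap R F r := by rw [hu]; rfl
    have h2 : ((u : V) : F) * (((u⁻¹ : Vˣ) : V) : F) = 1 := by
      rw [← MulMemClass.coe_mul, Units.mul_inv, OneMemClass.coe_one]
    have h3 : (algebraMap R F r)⁻¹ = (((u⁻¹ : Vˣ) : V) : F) := by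
      rw [← h1]
      exact inv_eq_of_mul_eq_one_right h2
    rw [h3]
    exact ((u⁻¹ : Vˣ) : V).2
  have hcbot : c ≠ ⊥ := by
    intro hbot
    apply hV
    refine SetLike.ext fun f => ⟨fun _ => ValuationSubring.mem_top f, fun _ => ?_⟩
    obtain ⟨a, b, hb, rfl⟩ := IsFractionRing.div_surjective (A := R) f
    have hb0 : b ≠ 0 := nonZeroDivisors.ne_zero hb
    have hbc : b ∉ c := by
      rw [hbot, Ideal.mem_bot]
      exact hb0
    rw [div_eq_mul_inv]
    exact V.mul_mem _ _ (hR a) (hinv b hbc)
  let P : HeightOneSpectrum R := ⟨c, hcprime, hcbot⟩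
  refine ⟨P, ?_⟩
  have hK : Ring.KrullDimLE 1 ↥((P.valuation F).valuationSubring) := by
    rw [← HeightOneSpectrum.valuationSubringAtPrime_eq_valuationSubring]
    infer_instance
  refine ValuationSubring.eq_of_le_of_ne_top _ ?_ hV
  intro f hf
  rw [Valuation.mem_valuationSubring_iff] at hf
  obtain ⟨n, d, hnd⟩ := HeightOneSpectrum.exists_primeCompl_mul_eq_of_integer P f hf
  have hd : (d : R) ∉ c := d.2
  have hd0 : algebraMap R F (d : R) ≠ 0 := by
    intro h0
    apply hd
    have : (d : R) = 0 := (map_eq_zero_iff _ (IsFractionRing.injective R F)).mp h0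
    rw [this]
    exact Ideal.zero_mem _
  have hfe : f = algebraMap R F n * (algebraMap R F (d : R))⁻¹ := by
    rw [← hnd, mul_assoc, mul_inv_cancel₀ hd0, mul_one]
  rw [hfe]
  exact V.mul_mem _ _ (hR n) (hinv _ hd)

/-- the same, as a `Place` -/
theorem exists_place_of_dedekind [Algebra K R] [IsScalarTower K R F] (V : ValuationSubring F)
    (hR : ∀ r : R, algebraMap R F r ∈ V) (hV : V ≠ ⊤) :
    ∃ P : Place K F, P.toValuationSubring = V := by
  obtain ⟨P, hP⟩ := exists_heightOneSpectrum_of_valuationSubring (R := R) V hR hV
  exact ⟨Place.ofHeightOneSpectrum (K := K) P, hP⟩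

end Dedekind

section Chart

variable (K)

/-- **a valuation subring containing the constants and a separating element is a place.** -/
theorem exists_place_of_mem {y : F} (hy : Transcendental K y) [FiniteDimensional K⟮y⟯ F]
    [Algebra.IsSeparable K⟮y⟯ F] (V : ValuationSubring F)
    (hK : ∀ c : K, algebraMap K F c ∈ V) (hyV : y ∈ V) (hV : V ≠ ⊤) :
    ∃ P : Place K F, P.toValuationSubring = V := by
  letI := polyAlgebra K y
  letI := ratFuncAlgebra K hy
  haveI := isScalarTower_poly_ratFunc K hy
  haveI := isScalarTower_const_ratFunc K hy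
  haveI := finiteDimensional_ratFunc K hy
  haveI := isSeparable_ratFunc K hy
  haveI := isScalarTower_const_poly K F
  haveI := isScalarTower_const_BFin K F
  haveI := isFractionRing_BFin K F
  haveI := isDedekindDomain_BFin K F
  -- `K[y] ⊆ V`
  have hpoly : ∀ p : K[X], algebraMap K[X] F p ∈ V := by
    intro p
    rw [algebraMap_polyAlgebra]
    induction p using Polynomial.induction_on with
    | C a => rw [aeval_C]; exact hK a
    | add p q hp hq => rw [map_add]; exact V.add_mem _ _ hp hq
    | monomial n a ih =>
      rw [pow_succ, ← mul_assoc, map_mul, aeval_X]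
      exact V.mul_mem _ _ ih hyV
  -- the integral closure of `K[y]` lies in `V`
  letI algV : Algebra K[X] V := ((algebraMap K[X] F).codRestrict V.toSubring hpoly).toAlgebra
  haveI : IsScalarTower K[X] V F := IsScalarTower.of_algebraMap_eq fun _ => rfl
  have hR : ∀ r : BFin K F, algebraMap (BFin K F) F r ∈ V := by
    intro r
    have h1 : IsIntegral K[X] (algebraMap (BFin K F) F r) := r.2
    have h2 : IsIntegral V (algebraMap (BFin K F) F r) := h1.tower_top
    obtain ⟨z, hz⟩ := IsIntegrallyClosed.isIntegral_iff.1 h2
    rw [← hz]
    exact z.2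
  exact exists_place_of_dedekind (K := K) (R := BFin K F) V hR hV

theorem adjoin_simple_inv (x : F) : K⟮x⁻¹⟯ = K⟮x⟯ := by
  apply le_antisymm
  · rw [adjoin_simple_le_iff]
    exact inv_mem (mem_adjoin_simple_self K x)
  · rw [adjoin_simple_le_iff]
    have := inv_mem (mem_adjoin_simple_self K x⁻¹)
    rwa [inv_inv] at this

/-- **a proper valuation subring of a function field of one variable containing the constants is a
place** (characteristic zero, `x` any separating element). -/
theorem exists_place_of_valuationSubring [CharZero K] {x : F} (hx : Transcendental K x)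
    [hfd : FiniteDimensional K⟮x⟯ F] (V : ValuationSubring F)
    (hK : ∀ c : K, algebraMap K F c ∈ V) (hV : V ≠ ⊤) :
    ∃ P : Place K F, P.toValuationSubring = V := by
  rcases V.mem_or_inv_mem x with hxV | hxV
  · exact exists_place_of_mem K hx V hK hxV hV
  · have hx' : Transcendental K x⁻¹ := by
      intro h
      apply hx
      have := h.inv
      rwa [inv_inv] at this
    haveI : FiniteDimensional K⟮x⁻¹⟯ F := by
      rw [adjoin_simple_inv K x]
      exact hfd
    exact exists_place_of_mem K hx' V hK hxV hV

end Chart

end Fermat.Agent.S17lib.ValExt
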