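/-
S17lib / ValExt / Chevalley  (helper3) — Project G (S17): extension of a place to an algebraic
extension of the function field, with residue field still `k`.

Setting: `k` algebraically closed, `L / k` a field, `Ω / L` ALGEBRAIC, `B` a valuation subring of `L`
containing `k` with residue field `k` (`∀ l ∈ B, ∃ c : k, l - c ∈ B.nonunits`).

* `exists_valuationSubring_over` : there is a valuation subring `A` of `Ω` with `A ∩ L = B`,
  `𝔪_A ∩ L = 𝔪_B`, `k ⊆ A`, and residue field `k` (`∀ a ∈ A, ∃ c : k, a - c ∈ A.nonunits`);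
* `exists_valuationSubring_over_place` : the same for `B = O_x`, `x : Place k L` of degree one.
-/
import Mathlib
import Fermat.Prelude.Def_AlgebraicCurve_DivisorClassGroup
import Fermat.Agent.LSb.Core.ValAt

set_option autoImplicit false
set_option linter.style.haveILetI false

noncomputable section

namespace Fermat.Agent.S17lib.ValExt

open Polynomial

variable {k L Ω : Type*} [Field k] [Field L] [Algebra k L] [Field Ω] [Algebra L Ω]

/-- **Chevalley**: a valuation subring `A` of `Ω` with `A ∩ L = B`. -/
theorem exists_valuationSubring_comap (B : ValuationSubring L) :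
    ∃ A : ValuationSubring Ω, ∀ l : L, algebraMap L Ω l ∈ A ↔ l ∈ B := by
  obtain ⟨A, hle, hloc⟩ :=
    (LocalSubring.map (algebraMap L Ω) B.toLocalSubring).exists_le_valuationSubring
  refine ⟨A, fun l => ⟨fun hl => ?_, fun hl => hle ⟨l, hl, rfl⟩⟩⟩
  by_contra hlB
  have hl0 : l ≠ 0 := fun h => hlB (h ▸ B.zero_mem)
  have hinv : l⁻¹ ∈ B := (B.mem_or_inv_mem l).resolve_left hlB
  -- `ι l⁻¹` is a unit of `A`, hence of the image of `B`
  let s : (LocalSubring.map (algebraMap L Ω) B.toLocalSubring).toSubring :=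
    ⟨algebraMap L Ω l⁻¹, ⟨l⁻¹, hinv, rfl⟩⟩
  have hunit : IsUnit (Subring.inclusion hle s) := by
    refine isUnit_iff_exists_inv.2 ⟨⟨algebraMap L Ω l, hl⟩, ?_⟩
    apply Subtype.ext
    show algebraMap L Ω l⁻¹ * algebraMap L Ω l = 1
    rw [← map_mul, inv_mul_cancel₀ hl0, map_one]
  have hs : IsUnit s := hloc.map_nonunit s hunit
  obtain ⟨⟨s', m, hm, hms'⟩, hss'⟩ := isUnit_iff_exists_inv.1 hs
  have h1 : algebraMap L Ω l⁻¹ * s' = 1 := congrArg Subtype.val hss'
  rw [← hms', ← map_mul] at h1
  have h2 : l⁻¹ * m = 1 := (algebraMap L Ω).injective (by rw [h1, map_one])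
  have h3 : m = l := by
    have := congrArg (l * ·) h2
    simpa [← mul_assoc, mul_inv_cancel₀ hl0] using this
  exact hlB (h3 ▸ hm)

/-- nonunits correspond -/
theorem nonunits_comap {A : ValuationSubring Ω} {B : ValuationSubring L}
    (hAB : ∀ l : L, algebraMap L Ω l ∈ A ↔ l ∈ B) (l : L) :
    algebraMap L Ω l ∈ A.nonunits ↔ l ∈ B.nonunits := by
  rw [ValuationSubring.mem_nonunits_iff_or, ValuationSubring.mem_nonunits_iff_or, ← map_inv₀, hAB,
    map_eq_zero]

variable [Algebra k Ω] [IsScalarTower k L Ω]

/-- **the residue field stays `k`** (`k` algebraically closed, `Ω / L` algebraic). -/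
theorem exists_sub_mem_nonunits [IsAlgClosed k] [Algebra.IsAlgebraic L Ω]
    {A : ValuationSubring Ω} {B : ValuationSubring L}
    (hAB : ∀ l : L, algebraMap L Ω l ∈ A ↔ l ∈ B) (hkB : ∀ c : k, algebraMap k L c ∈ B)
    (hres : ∀ l ∈ B, ∃ c : k, l - algebraMap k L c ∈ B.nonunits) {a : Ω} (ha : a ∈ A) :
    ∃ c : k, a - algebraMap k Ω c ∈ A.nonunits := by
  classical
  have hkA : ∀ c : k, algebraMap k Ω c ∈ A := fun c => by
    rw [IsScalarTower.algebraMap_apply k L Ω, hAB]
    exact hkB c
  -- a nonzero polynomial over `L` killing `a`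
  have hint : IsIntegral L a := (Algebra.IsAlgebraic.isAlgebraic a).isIntegral
  set p : L[X] := minpoly L a with hp
  have hp0 : p ≠ 0 := minpoly.ne_zero hint
  have hpa : aeval a p = 0 := minpoly.aeval L a
  have hsupp : p.support.Nonempty := by
    rwa [Finset.nonempty_iff_ne_empty, Ne, Polynomial.support_eq_empty]
  obtain ⟨i₀, hi₀, hmax⟩ := Finset.exists_max_image p.support
    (fun i => B.valuation (p.coeff i)) hsupp
  have hc0 : p.coeff i₀ ≠ 0 := Polynomial.mem_support_iff.1 hi₀
  -- the normalised coefficients lie in `B`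
  have hq : ∀ i, (p.coeff i₀)⁻¹ * p.coeff i ∈ B := by
    intro i
    rw [← ValuationSubring.valuation_le_one_iff, map_mul, map_inv₀]
    by_cases hi : i ∈ p.support
    · have h1 := hmax i hi
      have h2 : B.valuation (p.coeff i₀) ≠ 0 := (Valuation.ne_zero_iff _).2 hc0
      rw [inv_mul_le_iff₀ (zero_lt_iff.2 h2), mul_one]
      exact h1
    · rw [Polynomial.notMem_support_iff.1 hi, map_zero, mul_zero]
      exact zero_le_one
  choose c hc using fun i => hres _ (hq i)
  -- the reduced polynomial
  set qb : k[X] := ∑ i ∈ p.support, C (c i) * X ^ i with hqb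
  have hqb_coeff : qb.coeff i₀ = c i₀ := by
    rw [hqb, Polynomial.finsetSum_coeff]
    simp only [Polynomial.coeff_C_mul, Polynomial.coeff_X_pow]
    rw [Finset.sum_eq_single i₀]
    · simp
    · intro j _ hj
      rw [if_neg (Ne.symm hj), mul_zero]
    · intro h
      exact absurd hi₀ h
  have hci₀ : c i₀ ≠ 0 := by
    intro h0
    have h1 := hc i₀
    rw [h0, map_zero, sub_zero, inv_mul_cancel₀ hc0, ValuationSubring.mem_nonunits_iff,
      map_one] at h1
    exact lt_irrefl _ h1
  have hqb0 : qb ≠ 0 := by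
    intro h
    rw [h, Polynomial.coeff_zero] at hqb_coeff
    exact hci₀ hqb_coeff.symm
  -- `qb(a)` is a nonunit
  have hval : aeval a qb ∈ A.nonunits := by
    have h1 : aeval a qb = ∑ i ∈ p.support,
        algebraMap L Ω (algebraMap k L (c i) - (p.coeff i₀)⁻¹ * p.coeff i) * a ^ i := by
      have h2 : ∑ i ∈ p.support, algebraMap L Ω ((p.coeff i₀)⁻¹ * p.coeff i) * a ^ i = 0 := by
        have : ∑ i ∈ p.support, algebraMap L Ω ((p.coeff i₀)⁻¹ * p.coeff i) * a ^ i =
            algebraMap L Ω (p.coeff i₀)⁻¹ * aeval a p := by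
          rw [Polynomial.aeval_eq_sum_range, Finset.mul_sum]
          rw [Finset.sum_subset (s₁ := p.support) (s₂ := Finset.range (p.natDegree + 1))]
          · refine Finset.sum_congr rfl fun i _ => ?_
            rw [map_mul, Algebra.smul_def]
            ring
          · intro i hi
            rw [Finset.mem_range]
            exact Nat.lt_succ_of_le (Polynomial.le_natDegree_of_mem_supp i hi)
          · intro i _ hi
            rw [Polynomial.notMem_support_iff.1 hi, mul_zero, map_zero, zero_mul]
        rw [this, hpa, mul_zero]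
      rw [hqb, map_sum, ← sub_zero (∑ i ∈ p.support, aeval a (C (c i) * X ^ i)), ← h2,
        ← Finset.sum_sub_distrib]
      refine Finset.sum_congr rfl fun i _ => ?_
      rw [map_mul, aeval_C, map_pow, aeval_X, map_sub, ← IsScalarTower.algebraMap_apply k L Ω]
      ring
    rw [h1, ValuationSubring.mem_nonunits_iff]
    refine Valuation.map_sum_lt _ one_ne_zero fun i _ => ?_
    have h3 : algebraMap L Ω (algebraMap k L (c i) - (p.coeff i₀)⁻¹ * p.coeff i) ∈ A.nonunits := by
      rw [nonunits_comap hAB]
      have := hc i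
      rw [ValuationSubring.mem_nonunits_iff] at this ⊢
      rwa [← neg_sub, Valuation.map_neg]
    rw [ValuationSubring.mem_nonunits_iff] at h3
    rw [map_mul, map_pow]
    have h4 : A.valuation a ≤ 1 := (ValuationSubring.valuation_le_one_iff A a).2 ha
    calc A.valuation (algebraMap L Ω (algebraMap k L (c i) - (p.coeff i₀)⁻¹ * p.coeff i)) *
          A.valuation a ^ i
        ≤ A.valuation (algebraMap L Ω (algebraMap k L (c i) - (p.coeff i₀)⁻¹ * p.coeff i)) * 1 :=
          mul_le_mul_of_nonneg_left (pow_le_one' h4 i) zero_le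
      _ < 1 := by rwa [mul_one]
  -- factor `qb` over `k`
  have hsplit := (IsAlgClosed.splits qb).eq_prod_roots
  by_contra hcon
  push Not at hcon
  have hlc : qb.leadingCoeff ≠ 0 := Polynomial.leadingCoeff_ne_zero.2 hqb0
  have hone : ∀ z : Ω, z ∈ A → z ∉ A.nonunits → A.valuation z = 1 := by
    intro z hz hzn
    rw [ValuationSubring.mem_nonunits_iff, not_lt] at hzn
    exact le_antisymm ((ValuationSubring.valuation_le_one_iff A z).2 hz) hzn
  have hv1 : A.valuation (aeval a qb) = 1 := by
    rw [hsplit, map_mul, aeval_C, map_mul, map_multiset_prod, Multiset.map_map, map_multiset_prod,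
      Multiset.map_map]
    have h5 : A.valuation (algebraMap k Ω qb.leadingCoeff) = 1 := by
      refine hone _ (hkA _) ?_
      rw [ValuationSubring.mem_nonunits_iff_or, not_or]
      refine ⟨(_root_.map_ne_zero _).2 hlc, ?_⟩
      rw [not_not, ← map_inv₀]
      exact hkA _
    rw [h5, one_mul]
    refine Multiset.prod_eq_one fun z hz => ?_
    rw [Multiset.mem_map] at hz
    obtain ⟨r, -, rfl⟩ := hz
    simp only [Function.comp_apply, map_sub, aeval_X, aeval_C]
    exact hone _ (sub_mem ha (hkA r)) (hcon r)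
  rw [ValuationSubring.mem_nonunits_iff, hv1] at hval
  exact lt_irrefl _ hval

/-- **(B1)**: extension of a valuation subring with residue field `k` to an algebraic extension. -/
theorem exists_valuationSubring_over [IsAlgClosed k] [Algebra.IsAlgebraic L Ω]
    (B : ValuationSubring L) (hkB : ∀ c : k, algebraMap k L c ∈ B)
    (hres : ∀ l ∈ B, ∃ c : k, l - algebraMap k L c ∈ B.nonunits) :
    ∃ A : ValuationSubring Ω, (∀ l : L, algebraMap L Ω l ∈ A ↔ l ∈ B) ∧
      (∀ l : L, algebraMap L Ω l ∈ A.nonunits ↔ l ∈ B.nonunits) ∧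
      (∀ c : k, algebraMap k Ω c ∈ A) ∧
      ∀ a ∈ A, ∃ c : k, a - algebraMap k Ω c ∈ A.nonunits := by
  obtain ⟨A, hA⟩ := exists_valuationSubring_comap (Ω := Ω) B
  refine ⟨A, hA, nonunits_comap hA, fun c => ?_, fun a ha =>
    exists_sub_mem_nonunits hA hkB hres ha⟩
  rw [IsScalarTower.algebraMap_apply k L Ω, hA]
  exact hkB c

/-! ### the case of a place of degree one -/

open AlgebraicCurve in
/-- the nonunits of the valuation ring of a place are the functions vanishing there -/
theorem mem_nonunits_place_iff (x : Place k L) (l : L) :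
    l ∈ x.toValuationSubring.nonunits ↔ x.adicValuation l < 1 := by
  rw [ValuationSubring.mem_nonunits_iff_or]
  constructor
  · rintro (rfl | hinv)
    · simp
    · have hl : l ∈ x.toValuationSubring :=
        (x.toValuationSubring.mem_or_inv_mem l).resolve_right hinv
      have h1 := x.adicValuation_le_one_of_mem hl
      refine lt_of_le_of_ne h1 fun h => hinv ?_
      have hu : IsUnit (⟨l, hl⟩ : x.toValuationSubring) :=
        (x.adicValuation_coe_eq_one_iff ⟨l, hl⟩).1 h
      obtain ⟨u, hu⟩ := hu
      have h2 : ((u : x.toValuationSubring) : L) * (((u⁻¹ : (x.toValuationSubring)ˣ) :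
          x.toValuationSubring) : L) = 1 := by
        rw [← MulMemClass.coe_mul, Units.mul_inv, OneMemClass.coe_one]
      have h3 : ((u : x.toValuationSubring) : L) = l := by rw [hu]
      rw [h3] at h2
      rw [inv_eq_of_mul_eq_one_right h2]
      exact ((u⁻¹ : (x.toValuationSubring)ˣ) : x.toValuationSubring).2
  · intro h
    by_cases hl0 : l = 0
    · exact Or.inl hl0
    right
    intro hinv
    have h1 := x.adicValuation_le_one_of_mem hinv
    rw [map_inv₀] at h1
    have h2 : x.adicValuation l ≠ 0 := x.adicValuation_ne_zero hl0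
    have h3 : 1 ≤ x.adicValuation l := by
      rwa [inv_le_one₀ (zero_lt_iff.2 h2)] at h1
    exact absurd h (not_lt.2 h3)

open AlgebraicCurve in
/-- **(B1) for a place of degree one**: `x ↦ A`. -/
theorem exists_valuationSubring_over_place [IsAlgClosed k] [Algebra.IsAlgebraic L Ω]
    (x : Place k L) (hx : x.deg = 1) :
    ∃ A : ValuationSubring Ω, (∀ l : L, algebraMap L Ω l ∈ A ↔ l ∈ x.toValuationSubring) ∧
      (∀ l : L, algebraMap L Ω l ∈ A.nonunits ↔ x.adicValuation l < 1) ∧
      (∀ c : k, algebraMap k Ω c ∈ A) ∧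
      ∀ a ∈ A, ∃ c : k, a - algebraMap k Ω c ∈ A.nonunits := by
  obtain ⟨A, h1, h2, h3, h4⟩ := exists_valuationSubring_over (Ω := Ω) x.toValuationSubring
    x.algebraMap_mem' (fun l hl => by
      obtain ⟨c, hc⟩ := Fermat.Agent.LSb.Core.exists_vanishAt_sub x hx hl
      exact ⟨c, (mem_nonunits_place_iff x _).2 hc⟩)
  exact ⟨A, h1, fun l => (h2 l).trans (mem_nonunits_place_iff x l), h3, h4⟩

/-! ### the packaged instance form -/

section Package

variable {k Ω : Type*} [Field k] [Field Ω] [Algebra k Ω]

/-- the `k`-algebra structure on a valuation subring containing `k` -/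
@[reducible] def algebraOfMem (A : ValuationSubring Ω) (hk : ∀ c : k, algebraMap k Ω c ∈ A) :
    Algebra k A :=
  ((algebraMap k Ω).codRestrict A.toSubring hk).toAlgebra

theorem isScalarTower_algebraOfMem (A : ValuationSubring Ω)
    (hk : ∀ c : k, algebraMap k Ω c ∈ A) :
    letI := algebraOfMem A hk
    IsScalarTower k A Ω :=
  letI := algebraOfMem A hk
  IsScalarTower.of_algebraMap_eq fun _ => rfl

/-- residue field `= k` in the form `Function.Surjective (algebraMap k (ResidueField A))` -/
theorem residue_surjective_algebraOfMem (A : ValuationSubring Ω)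
    (hk : ∀ c : k, algebraMap k Ω c ∈ A)
    (hres : ∀ a ∈ A, ∃ c : k, a - algebraMap k Ω c ∈ A.nonunits) :
    letI := algebraOfMem A hk
    Function.Surjective (algebraMap k (IsLocalRing.ResidueField A)) := by
  letI := algebraOfMem A hk
  intro y
  obtain ⟨a, rfl⟩ := IsLocalRing.residue_surjective y
  obtain ⟨c, hc⟩ := hres a a.2
  refine ⟨c, ?_⟩
  have h1 : a - algebraMap k A c ∈ IsLocalRing.maximalIdeal A := by
    rw [ValuationSubring.valuation_lt_one_iff]
    exact (ValuationSubring.mem_nonunits_iff A).1 hc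
  have h2 : IsLocalRing.residue A (a - algebraMap k A c) = 0 :=
    (IsLocalRing.residue_eq_zero_iff _).2 h1
  rw [map_sub, sub_eq_zero] at h2
  rw [h2]
  rfl

end Package

end Fermat.Agent.S17lib.ValExt
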